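import Mathlib
import Fermat.Agent.LT.T6.H305.Sys
import Fermat.Agent.LT.T7.H893.SupplyConstrSpec

/-!
# Row LT, tower T7: ASSET for the step `T_w` of the first pair (`B981.StepTC981`), part 1: the count

OFF-MAIN (helper528).  LOCAL, one valued field.  The Hecke operator `T = 1_{K diag(ϖ,1) K}` on the
spherical functions in the Cartan form `H893.IsSphFn893`:

* `cartan_count528`: for `x` of Cartan type `(a, b)` and the `q + 1` cosets `h K` of
  `K diag(ϖ,1) K`, the element `x c⁻¹ h` (`c` a scalar uniformiser) has the type `(a, b - 1)`,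
  except for exactly one coset if `a > b`, where the type is `(a - 1, b)`.
* `isSphFn_hecke528`: `x ↦ ∑_{h ∈ H} φ (x c⁻¹ h)` is spherical with the values `tA528 q A`.
* `satT_tA528`: the Satake transform of `tA528 q A` is `√q (x + y)` times the one of `A`.

New names only, suffix `528`, namespace `Fermat.Agent.LT.T7.H528S`.  On the closed toolkit of
helper305 (`T6/H305/{Basic,Digits,Mat,Hnf,Sys}.lean`, master bytes).
-/

set_option autoImplicit false
set_option linter.unusedSectionVars false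
set_option linter.unusedSimpArgs false
set_option linter.unnecessarySeqFocus false
set_option linter.deprecated false

open scoped Matrix
open scoped Classical

noncomputable section

namespace Fermat.Agent.LT.T7.H528S

open Fermat.Agent.LT.T6 Fermat.Agent.LT.T6.H305 Fermat.Agent.LT.T7.H893

variable {k : Type} [Field k] [Valued k Γ₀]

/-! ## 1. Valuations of the entries -/

theorem val_det_le_sq528 (g : GL (Fin 2) k) :
    Valued.v (g : Matrix (Fin 2) (Fin 2) k).det ≤ entryMax g * entryMax g := by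
  rw [Matrix.det_fin_two]
  refine Valuation.map_sub_le _ ?_ ?_
  · rw [map_mul]; exact mul_le_mul' (le_entryMax g 0 0) (le_entryMax g 1 1)
  · rw [map_mul]; exact mul_le_mul' (le_entryMax g 0 1) (le_entryMax g 1 0)

theorem cartan_dominant528 (g : GL (Fin 2) k) : (cartan g).2 ≤ (cartan g).1 := by
  have h := val_det_le_sq528 g
  have h1 := entryMax_ne_zero g
  have h2 := val_det_ne_zero g
  rw [← WithZero.log_le_log h2 (mul_ne_zero h1 h1), WithZero.log_mul h1 h1] at h
  unfold cartan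
  simp only
  omega

/-- The Cartan invariant from the two valuations. -/
theorem cartan_eq_of528 (g : GL (Fin 2) k) (e d : ℤ) (he : entryMax g = WithZero.exp e)
    (hd : Valued.v (g : Matrix (Fin 2) (Fin 2) k).det = WithZero.exp d) :
    cartan g = (e - d, -e) := by
  unfold cartan
  rw [he, hd, WithZero.log_exp, WithZero.log_exp]

theorem entryMax_eq_exp528 (g : GL (Fin 2) k) :
    entryMax g = WithZero.exp (-(cartan g).2) := by
  unfold cartan
  simp only [neg_neg]
  exact (WithZero.exp_log (entryMax_ne_zero g)).symm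

theorem val_det_eq_exp528 (g : GL (Fin 2) k) :
    Valued.v (g : Matrix (Fin 2) (Fin 2) k).det
      = WithZero.exp (-((cartan g).1 + (cartan g).2)) := by
  unfold cartan
  simp only
  rw [show -(WithZero.log (entryMax g)
      - WithZero.log (Valued.v (g : Matrix (Fin 2) (Fin 2) k).det) + -WithZero.log (entryMax g))
      = WithZero.log (Valued.v (g : Matrix (Fin 2) (Fin 2) k).det) by ring]
  exact (WithZero.exp_log (val_det_ne_zero g)).symm

/-! ## 2. The standard representatives, special cosets -/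

theorem entryMax_lt_iff528 (g : GL (Fin 2) k) (c : Γ₀) :
    entryMax g < c ↔ ∀ i j, Valued.v ((g : Matrix (Fin 2) (Fin 2) k) i j) < c := by
  unfold entryMax
  rw [Finset.sup'_lt_iff]
  constructor
  · intro h i j; exact h (i, j) (Finset.mem_univ _)
  · intro h p _; exact h p.1 p.2

/-- `h` is an integral matrix with determinant of valuation `exp (-1)`. -/
def IsT528 (h : GL (Fin 2) k) : Prop :=
  (∀ i j, Valued.v ((h : Matrix (Fin 2) (Fin 2) k) i j) ≤ 1) ∧
    Valued.v (h : Matrix (Fin 2) (Fin 2) k).det = WithZero.exp (-1 : ℤ)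

theorem entryMax_mul_le528 (x h : GL (Fin 2) k)
    (hh : ∀ i j, Valued.v ((h : Matrix (Fin 2) (Fin 2) k) i j) ≤ 1) :
    entryMax (x * h) ≤ entryMax x := by
  rw [entryMax_le_iff]
  intro i j
  rw [Units.val_mul, Matrix.mul_apply]
  refine Valuation.map_sum_le _ (fun l _ => ?_)
  rw [map_mul]
  calc Valued.v ((x : Matrix (Fin 2) (Fin 2) k) i l) * Valued.v ((h : Matrix (Fin 2) (Fin 2) k) l j)
      ≤ entryMax x * 1 := mul_le_mul' (le_entryMax x i l) (hh l j)
    _ = entryMax x := mul_one _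

theorem inv_entry_le528 (h : GL (Fin 2) k) (hh : IsT528 h) (i j : Fin 2) :
    Valued.v (((h⁻¹ : GL (Fin 2) k) : Matrix (Fin 2) (Fin 2) k) i j) ≤ WithZero.exp (1 : ℤ) := by
  have hd : Valued.v ((h : Matrix (Fin 2) (Fin 2) k).det)⁻¹ = WithZero.exp (1 : ℤ) := by
    rw [map_inv₀, hh.2, ← WithZero.exp_neg]; simp
  have key : ∀ a : k, Valued.v a ≤ 1 →
      Valued.v (a / (h : Matrix (Fin 2) (Fin 2) k).det) ≤ WithZero.exp (1 : ℤ) := by
    intro a ha
    rw [div_eq_mul_inv, map_mul, hd]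
    calc Valued.v a * WithZero.exp (1 : ℤ) ≤ 1 * WithZero.exp (1 : ℤ) := mul_le_mul' ha le_rfl
      _ = _ := one_mul _
  rw [inv_val_eq]
  fin_cases i <;> fin_cases j
  · simpa using key _ (hh.1 1 1)
  · simpa [neg_div] using key _ (hh.1 0 1)
  · simpa [neg_div] using key _ (hh.1 1 0)
  · simpa using key _ (hh.1 0 0)

theorem entryMax_le_mul528 (x h : GL (Fin 2) k) (hh : IsT528 h) :
    entryMax x ≤ WithZero.exp (1 : ℤ) * entryMax (x * h) := by
  rw [entryMax_le_iff]
  intro i j
  have hx : (x : Matrix (Fin 2) (Fin 2) k)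
      = ((x * h : GL (Fin 2) k) : Matrix (Fin 2) (Fin 2) k)
        * ((h⁻¹ : GL (Fin 2) k) : Matrix (Fin 2) (Fin 2) k) := by
    rw [← Units.val_mul, mul_inv_cancel_right]
  rw [hx, Matrix.mul_apply]
  refine Valuation.map_sum_le _ (fun l _ => ?_)
  rw [map_mul, mul_comm]
  exact mul_le_mul' (inv_entry_le528 h hh l j) (le_entryMax (x * h) i l)

/-- `h` is SPECIAL for `x`: the product `x h` is divisible by `ϖ` more than `x`. -/
def IsSpec528 (x h : GL (Fin 2) k) : Prop := entryMax (x * h) < entryMax x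

theorem entryMax_of_not_spec528 (x h : GL (Fin 2) k) (hh : IsT528 h) (hs : ¬ IsSpec528 x h) :
    entryMax (x * h) = entryMax x :=
  le_antisymm (entryMax_mul_le528 x h hh.1) (not_lt.1 hs)

theorem entryMax_of_spec528 (x h : GL (Fin 2) k) (hh : IsT528 h) (hs : IsSpec528 x h) :
    entryMax (x * h) = WithZero.exp (-1 : ℤ) * entryMax x := by
  have h1 := entryMax_le_mul528 x h hh
  have hx := entryMax_ne_zero x
  have hxh := entryMax_ne_zero (x * h)
  unfold IsSpec528 at hs
  rw [← WithZero.exp_log hx, ← WithZero.exp_log hxh] at hs h1 ⊢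
  rw [← WithZero.exp_add] at h1 ⊢
  rw [WithZero.exp_lt_exp] at hs
  rw [WithZero.exp_le_exp] at h1
  congr 1
  omega

theorem val_det_mul528 (x h : GL (Fin 2) k) (hh : IsT528 h) :
    Valued.v ((x * h : GL (Fin 2) k) : Matrix (Fin 2) (Fin 2) k).det
      = Valued.v (x : Matrix (Fin 2) (Fin 2) k).det * WithZero.exp (-1 : ℤ) := by
  rw [Units.val_mul, Matrix.det_mul, map_mul, hh.2]

/-- A special coset exists only if `a > b`. -/
theorem lt_of_spec528 (x h : GL (Fin 2) k) (hh : IsT528 h) (hs : IsSpec528 x h) :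
    (cartan x).2 < (cartan x).1 := by
  have h1 := val_det_le_sq528 (x * h)
  rw [val_det_mul528 x h hh, entryMax_of_spec528 x h hh hs, val_det_eq_exp528 x,
    entryMax_eq_exp528 x, ← WithZero.exp_add, ← WithZero.exp_add, ← WithZero.exp_add,
    WithZero.exp_le_exp] at h1
  omega

/-! ## 3. The Cartan invariant of `x h` -/

theorem cartan_mul_of_not_spec528 (x h : GL (Fin 2) k) (hh : IsT528 h) (hs : ¬ IsSpec528 x h) :
    cartan (x * h) = ((cartan x).1 + 1, (cartan x).2) := by
  rw [cartan_eq_of528 (x * h) (-(cartan x).2) (-((cartan x).1 + (cartan x).2) + -1)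
    (by rw [entryMax_of_not_spec528 x h hh hs, entryMax_eq_exp528 x])
    (by rw [val_det_mul528 x h hh, val_det_eq_exp528 x, ← WithZero.exp_add])]
  ext <;> simp <;> ring

theorem cartan_mul_of_spec528 (x h : GL (Fin 2) k) (hh : IsT528 h) (hs : IsSpec528 x h) :
    cartan (x * h) = ((cartan x).1, (cartan x).2 + 1) := by
  rw [cartan_eq_of528 (x * h) (-1 + -(cartan x).2) (-((cartan x).1 + (cartan x).2) + -1)
    (by rw [entryMax_of_spec528 x h hh hs, entryMax_eq_exp528 x, ← WithZero.exp_add])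
    (by rw [val_det_mul528 x h hh, val_det_eq_exp528 x, ← WithZero.exp_add])]
  ext <;> simp <;> ring

/-! ## 4. Counting in the standard system -/

section Count

variable (D : ResData k)

theorem isT_um_one528 (r : k) (hr : Valued.v r ≤ 1) : IsT528 (D.um 1 0 r) := by
  refine ⟨fun i j => ?_, ?_⟩
  · fin_cases i <;> fin_cases j <;> simp [hr, D.hϖ]
    exact (WithZero.exp_le_exp.2 (by norm_num : (-1 : ℤ) ≤ 0))
  · rw [D.um_val, Matrix.det_fin_two_of]
    simp [D.hϖ]

theorem isT_um_inf528 : IsT528 (D.um 0 1 0) := by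
  refine ⟨fun i j => ?_, ?_⟩
  · fin_cases i <;> fin_cases j <;> simp [D.hϖ]
    exact (WithZero.exp_le_exp.2 (by norm_num : (-1 : ℤ) ≤ 0))
  · rw [D.um_val, Matrix.det_fin_two_of]
    simp [D.hϖ]

theorem mul_um_one_apply528 (x : GL (Fin 2) k) (r : k) (i : Fin 2) :
    ((x * D.um 1 0 r : GL (Fin 2) k) : Matrix (Fin 2) (Fin 2) k) i 0
        = D.ϖ * (x : Matrix (Fin 2) (Fin 2) k) i 0 ∧
      ((x * D.um 1 0 r : GL (Fin 2) k) : Matrix (Fin 2) (Fin 2) k) i 1
        = r * (x : Matrix (Fin 2) (Fin 2) k) i 0 + (x : Matrix (Fin 2) (Fin 2) k) i 1 := by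
  rw [Units.val_mul, D.um_val, Matrix.mul_apply, Matrix.mul_apply, Fin.sum_univ_two,
    Fin.sum_univ_two]
  constructor
  · simp; ring
  · simp; ring

theorem mul_um_inf_apply528 (x : GL (Fin 2) k) (i : Fin 2) :
    ((x * D.um 0 1 0 : GL (Fin 2) k) : Matrix (Fin 2) (Fin 2) k) i 0
        = (x : Matrix (Fin 2) (Fin 2) k) i 0 ∧
      ((x * D.um 0 1 0 : GL (Fin 2) k) : Matrix (Fin 2) (Fin 2) k) i 1
        = D.ϖ * (x : Matrix (Fin 2) (Fin 2) k) i 1 := by
  rw [Units.val_mul, D.um_val, Matrix.mul_apply, Matrix.mul_apply, Fin.sum_univ_two,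
    Fin.sum_univ_two]
  constructor
  · simp
  · simp; ring

theorem val_ϖ_mul_lt528 (x : GL (Fin 2) k) (i j : Fin 2) :
    Valued.v (D.ϖ * (x : Matrix (Fin 2) (Fin 2) k) i j) < entryMax x := by
  rw [map_mul, D.hϖ]
  have hx := entryMax_ne_zero x
  have hle := le_entryMax x i j
  calc WithZero.exp (-1 : ℤ) * Valued.v ((x : Matrix (Fin 2) (Fin 2) k) i j)
      ≤ WithZero.exp (-1 : ℤ) * entryMax x := mul_le_mul' le_rfl hle
    _ < 1 * entryMax x := by
        have h1 : (WithZero.exp (-1 : ℤ) : Γ₀) < 1 := by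
          rw [show (1 : Γ₀) = WithZero.exp (0 : ℤ) from rfl, WithZero.exp_lt_exp]; norm_num
        exact mul_lt_mul_of_pos_right h1 (zero_lt_iff.2 hx)
    _ = entryMax x := one_mul _

theorem spec_inf_iff528 (x : GL (Fin 2) k) :
    IsSpec528 x (D.um 0 1 0) ↔
      Valued.v ((x : Matrix (Fin 2) (Fin 2) k) 0 0) < entryMax x ∧
        Valued.v ((x : Matrix (Fin 2) (Fin 2) k) 1 0) < entryMax x := by
  unfold IsSpec528
  rw [entryMax_lt_iff528]
  constructor
  · intro h
    have h0 := h 0 0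
    have h1 := h 1 0
    rw [(mul_um_inf_apply528 D x 0).1] at h0
    rw [(mul_um_inf_apply528 D x 1).1] at h1
    exact ⟨h0, h1⟩
  · rintro ⟨h0, h1⟩ i j
    fin_cases i <;> fin_cases j
    · show Valued.v (((x * D.um 0 1 0 : GL (Fin 2) k) : Matrix (Fin 2) (Fin 2) k) 0 0) < _
      rw [(mul_um_inf_apply528 D x 0).1]; exact h0
    · show Valued.v (((x * D.um 0 1 0 : GL (Fin 2) k) : Matrix (Fin 2) (Fin 2) k) 0 1) < _
      rw [(mul_um_inf_apply528 D x 0).2]; exact val_ϖ_mul_lt528 D x 0 1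
    · show Valued.v (((x * D.um 0 1 0 : GL (Fin 2) k) : Matrix (Fin 2) (Fin 2) k) 1 0) < _
      rw [(mul_um_inf_apply528 D x 1).1]; exact h1
    · show Valued.v (((x * D.um 0 1 0 : GL (Fin 2) k) : Matrix (Fin 2) (Fin 2) k) 1 1) < _
      rw [(mul_um_inf_apply528 D x 1).2]; exact val_ϖ_mul_lt528 D x 1 1

theorem spec_one_iff528 (x : GL (Fin 2) k) (r : k) :
    IsSpec528 x (D.um 1 0 r) ↔
      Valued.v (r * (x : Matrix (Fin 2) (Fin 2) k) 0 0 + (x : Matrix (Fin 2) (Fin 2) k) 0 1)
          < entryMax x ∧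
        Valued.v (r * (x : Matrix (Fin 2) (Fin 2) k) 1 0 + (x : Matrix (Fin 2) (Fin 2) k) 1 1)
          < entryMax x := by
  unfold IsSpec528
  rw [entryMax_lt_iff528]
  constructor
  · intro h
    have h0 := h 0 1
    have h1 := h 1 1
    rw [(mul_um_one_apply528 D x r 0).2] at h0
    rw [(mul_um_one_apply528 D x r 1).2] at h1
    exact ⟨h0, h1⟩
  · rintro ⟨h0, h1⟩ i j
    fin_cases i <;> fin_cases j
    · show Valued.v (((x * D.um 1 0 r : GL (Fin 2) k) : Matrix (Fin 2) (Fin 2) k) 0 0) < _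
      rw [(mul_um_one_apply528 D x r 0).1]; exact val_ϖ_mul_lt528 D x 0 0
    · show Valued.v (((x * D.um 1 0 r : GL (Fin 2) k) : Matrix (Fin 2) (Fin 2) k) 0 1) < _
      rw [(mul_um_one_apply528 D x r 0).2]; exact h0
    · show Valued.v (((x * D.um 1 0 r : GL (Fin 2) k) : Matrix (Fin 2) (Fin 2) k) 1 0) < _
      rw [(mul_um_one_apply528 D x r 1).1]; exact val_ϖ_mul_lt528 D x 1 0
    · show Valued.v (((x * D.um 1 0 r : GL (Fin 2) k) : Matrix (Fin 2) (Fin 2) k) 1 1) < _
      rw [(mul_um_one_apply528 D x r 1).2]; exact h1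

theorem not_all_lt528 (x : GL (Fin 2) k)
    (h : ∀ i j, Valued.v ((x : Matrix (Fin 2) (Fin 2) k) i j) < entryMax x) : False := by
  obtain ⟨i, j, hij⟩ := exists_entryMax x
  have := h i j
  rw [← hij] at this
  exact lt_irrefl _ this

theorem val_mul_lt528 {E : Γ₀} {r a : k} (hr : Valued.v r ≤ 1) (ha : Valued.v a < E) :
    Valued.v (r * a) < E := by
  rw [map_mul]
  calc Valued.v r * Valued.v a ≤ 1 * Valued.v a := mul_le_mul' hr le_rfl
    _ = Valued.v a := one_mul _
    _ < E := ha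

/-- The second column is small if the first column and the combinations are small. -/
theorem col_lt528 {E : Γ₀} {r a b : k} (hr : Valued.v r ≤ 1) (ha : Valued.v a < E)
    (hab : Valued.v (r * a + b) < E) : Valued.v b < E := by
  have : b = (r * a + b) - r * a := by ring
  rw [this]
  exact Valuation.map_sub_lt _ hab (val_mul_lt528 hr ha)

theorem spec_inf_one_false528 (x : GL (Fin 2) k) (r : k) (hr : Valued.v r ≤ 1)
    (h1 : IsSpec528 x (D.um 0 1 0)) (h2 : IsSpec528 x (D.um 1 0 r)) : False := by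
  obtain ⟨hp, ht⟩ := (spec_inf_iff528 D x).1 h1
  obtain ⟨hs, hu⟩ := (spec_one_iff528 D x r).1 h2
  apply not_all_lt528 x
  intro i j
  fin_cases i <;> fin_cases j
  · exact hp
  · exact col_lt528 hr hp hs
  · exact ht
  · exact col_lt528 hr ht hu

theorem spec_one_unique528 (x : GL (Fin 2) k) (r r' : k) (hr : r ∈ D.T) (hr' : r' ∈ D.T)
    (h1 : IsSpec528 x (D.um 1 0 r)) (h2 : IsSpec528 x (D.um 1 0 r')) : r = r' := by
  by_contra hne
  obtain ⟨hs, hu⟩ := (spec_one_iff528 D x r).1 h1
  obtain ⟨hs', hu'⟩ := (spec_one_iff528 D x r').1 h2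
  have hsep := D.sep r hr r' hr' hne
  have key : ∀ a b : k, Valued.v (r * a + b) < entryMax x → Valued.v (r' * a + b) < entryMax x →
      Valued.v a < entryMax x := by
    intro a b h h'
    have e : (r - r') * a = (r * a + b) - (r' * a + b) := by ring
    have := Valuation.map_sub_lt _ h h'
    rw [← e, map_mul, hsep, one_mul] at this
    exact this
  have hp := key _ _ hs hs'
  have ht := key _ _ hu hu'
  apply not_all_lt528 x
  intro i j
  fin_cases i <;> fin_cases j
  · exact hp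
  · exact col_lt528 (D.int r hr) hp hs
  · exact ht
  · exact col_lt528 (D.int r hr) ht hu

/-- The digit which kills the row with a maximal first entry. -/
theorem exists_digit528 {E : Γ₀} (hE : E ≠ 0) (a b c d : k) (ha : Valued.v a = E)
    (hb : Valued.v b ≤ E) (hc : Valued.v c ≤ E)
    (hdet : Valued.v (a * d - b * c) < E * E) :
    ∃ r ∈ D.T, Valued.v (r * a + b) < E ∧ Valued.v (r * c + d) < E := by
  have ha0 : a ≠ 0 := by
    intro h
    rw [h, map_zero] at ha
    exact hE ha.symm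
  have hz : Valued.v (-b / a) ≤ 1 := by
    rw [map_div₀, Valuation.map_neg, ha]
    exact div_le_one_of_le₀ hb zero_le'
  obtain ⟨r, hr, hrz⟩ := D.cov (-b / a) hz
  have hrz' : Valued.v (r - -b / a) < 1 := by
    rw [← Valuation.map_neg]
    have : -(r - -b / a) = -b / a - r := by ring
    rw [this]
    exact hrz
  have h1 : Valued.v (r * a + b) < E := by
    have e : r * a + b = (r - -b / a) * a := by field_simp; ring
    rw [e, map_mul, ha]
    calc Valued.v (r - -b / a) * E < 1 * E := mul_lt_mul_of_pos_right hrz' (zero_lt_iff.2 hE)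
      _ = E := one_mul _
  refine ⟨r, hr, h1, ?_⟩
  have e : a * (r * c + d) = c * (r * a + b) + (a * d - b * c) := by ring
  have h2 : Valued.v (a * (r * c + d)) < E * E := by
    rw [e]
    refine Valuation.map_add_lt _ ?_ hdet
    rw [map_mul]
    calc Valued.v c * Valued.v (r * a + b) ≤ E * Valued.v (r * a + b) := mul_le_mul' hc le_rfl
      _ < E * E := mul_lt_mul_of_pos_left h1 (zero_lt_iff.2 hE)
  rw [map_mul, ha] at h2
  exact lt_of_mul_lt_mul_left' h2

theorem exists_spec528 (x : GL (Fin 2) k) (hlt : (cartan x).2 < (cartan x).1) :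
    IsSpec528 x (D.um 0 1 0) ∨ ∃ r ∈ D.T, IsSpec528 x (D.um 1 0 r) := by
  have hE := entryMax_ne_zero x
  have hdet : Valued.v (x : Matrix (Fin 2) (Fin 2) k).det < entryMax x * entryMax x := by
    rw [val_det_eq_exp528 x, entryMax_eq_exp528 x, ← WithZero.exp_add, WithZero.exp_lt_exp]
    omega
  rw [Matrix.det_fin_two] at hdet
  by_cases hp : Valued.v ((x : Matrix (Fin 2) (Fin 2) k) 0 0) < entryMax x
  · by_cases ht : Valued.v ((x : Matrix (Fin 2) (Fin 2) k) 1 0) < entryMax x
    · exact Or.inl ((spec_inf_iff528 D x).2 ⟨hp, ht⟩)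
    · have ht' : Valued.v ((x : Matrix (Fin 2) (Fin 2) k) 1 0) = entryMax x :=
        le_antisymm (le_entryMax x 1 0) (not_lt.1 ht)
      have hdet' : Valued.v ((x : Matrix (Fin 2) (Fin 2) k) 1 0 * (x : Matrix (Fin 2) (Fin 2) k) 0 1
          - (x : Matrix (Fin 2) (Fin 2) k) 1 1 * (x : Matrix (Fin 2) (Fin 2) k) 0 0)
          < entryMax x * entryMax x := by
        rw [← Valuation.map_neg]
        have e : -((x : Matrix (Fin 2) (Fin 2) k) 1 0 * (x : Matrix (Fin 2) (Fin 2) k) 0 1
          - (x : Matrix (Fin 2) (Fin 2) k) 1 1 * (x : Matrix (Fin 2) (Fin 2) k) 0 0)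
          = (x : Matrix (Fin 2) (Fin 2) k) 0 0 * (x : Matrix (Fin 2) (Fin 2) k) 1 1
            - (x : Matrix (Fin 2) (Fin 2) k) 0 1 * (x : Matrix (Fin 2) (Fin 2) k) 1 0 := by ring
        rw [e]; exact hdet
      obtain ⟨r, hr, h1, h2⟩ := exists_digit528 D hE _ _ _ _ ht' (le_entryMax x 1 1)
        (le_entryMax x 0 0) hdet'
      exact Or.inr ⟨r, hr, (spec_one_iff528 D x r).2 ⟨h2, h1⟩⟩
  · have hp' : Valued.v ((x : Matrix (Fin 2) (Fin 2) k) 0 0) = entryMax x :=
      le_antisymm (le_entryMax x 0 0) (not_lt.1 hp)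
    obtain ⟨r, hr, h1, h2⟩ := exists_digit528 D hE _ _ _ _ hp' (le_entryMax x 0 1)
      (le_entryMax x 1 0) hdet
    exact Or.inr ⟨r, hr, (spec_one_iff528 D x r).2 ⟨h1, h2⟩⟩

/-- **THE COUNT** in the standard system. -/
theorem sum_cartan_std528 (x : GL (Fin 2) k) (G : ℤ × ℤ → ℂ) :
    ∑ r ∈ D.T, G (cartan (x * D.um 1 0 r)) + G (cartan (x * D.um 0 1 0))
      = if (cartan x).2 < (cartan x).1 then
          (D.T.card : ℂ) * G ((cartan x).1 + 1, (cartan x).2) + G ((cartan x).1, (cartan x).2 + 1)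
        else ((D.T.card : ℂ) + 1) * G ((cartan x).1 + 1, (cartan x).2) := by
  have hT : ∀ r ∈ D.T, IsT528 (D.um 1 0 r) := fun r hr => isT_um_one528 D r (D.int r hr)
  have hI : IsT528 (D.um 0 1 0) := isT_um_inf528 D
  by_cases hlt : (cartan x).2 < (cartan x).1
  · rw [if_pos hlt]
    rcases exists_spec528 D x hlt with hinf | ⟨r₀, hr₀, hs₀⟩
    · rw [cartan_mul_of_spec528 x _ hI hinf]
      have : ∀ r ∈ D.T, G (cartan (x * D.um 1 0 r)) = G ((cartan x).1 + 1, (cartan x).2) := by
        intro r hr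
        rw [cartan_mul_of_not_spec528 x _ (hT r hr)
          (fun h => spec_inf_one_false528 D x r (D.int r hr) hinf h)]
      rw [Finset.sum_congr rfl this, Finset.sum_const, nsmul_eq_mul]
    · have hninf : ¬ IsSpec528 x (D.um 0 1 0) :=
        fun h => spec_inf_one_false528 D x r₀ (D.int r₀ hr₀) h hs₀
      rw [cartan_mul_of_not_spec528 x _ hI hninf, ← Finset.add_sum_erase _ _ hr₀,
        cartan_mul_of_spec528 x _ (hT r₀ hr₀) hs₀]
      have : ∀ r ∈ D.T.erase r₀,
          G (cartan (x * D.um 1 0 r)) = G ((cartan x).1 + 1, (cartan x).2) := by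
        intro r hr
        obtain ⟨hne, hrT⟩ := Finset.mem_erase.1 hr
        rw [cartan_mul_of_not_spec528 x _ (hT r hrT)
          (fun h => hne (spec_one_unique528 D x r r₀ hrT hr₀ h hs₀))]
      rw [Finset.sum_congr rfl this, Finset.sum_const, nsmul_eq_mul,
        Finset.card_erase_of_mem hr₀]
      have hpos : 1 ≤ D.T.card := Finset.card_pos.2 ⟨r₀, hr₀⟩
      rw [Nat.cast_sub hpos]
      push_cast
      ring
  · rw [if_neg hlt]
    have hn : ∀ h : GL (Fin 2) k, IsT528 h → ¬ IsSpec528 x h :=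
      fun h hh hs => hlt (lt_of_spec528 x h hh hs)
    rw [cartan_mul_of_not_spec528 x _ hI (hn _ hI)]
    have : ∀ r ∈ D.T, G (cartan (x * D.um 1 0 r)) = G ((cartan x).1 + 1, (cartan x).2) := by
      intro r hr
      rw [cartan_mul_of_not_spec528 x _ (hT r hr) (hn _ (hT r hr))]
    rw [Finset.sum_congr rfl this, Finset.sum_const, nsmul_eq_mul]
    ring

theorem R_one528 : D.R 1 = D.T := by
  ext r
  rw [show (1 : ℕ) = 0 + 1 from rfl, D.mem_R_succ]
  constructor
  · rintro ⟨r', hr', d, hd, rfl⟩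
    rw [D.mem_R_zero.1 hr']
    simpa using hd
  · intro hr
    exact ⟨0, D.mem_R_zero.2 rfl, r, hr, by simp⟩

/-- The sum over the explicit system of type `(1, 0)`. -/
theorem sum_std528 (F : GL (Fin 2) k → ℂ) :
    ∑ x ∈ D.Idx 1, F (D.fam 0 x) = ∑ r ∈ D.T, F (D.um 1 0 r) + F (D.um 0 1 0) := by
  rw [D.sum_Idx 1 (fun x => F (D.fam 0 x))]
  have hanti : (Finset.HasAntidiagonal.antidiagonal 1 : Finset (ℕ × ℕ)) = {(0, 1), (1, 0)} := by
    decide
  rw [hanti, Finset.sum_pair (by decide)]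
  have h0 : (D.R 0).filter (fun r => Prim 0 1 r) = {0} := by
    ext r
    simp only [Finset.mem_filter, Finset.mem_singleton, D.mem_R_zero]
    constructor
    · exact fun h => h.1
    · exact fun h => ⟨h, Or.inl rfl⟩
  have h1 : (D.R 1).filter (fun r => Prim 1 0 r) = D.T := by
    rw [R_one528 D]
    ext r
    simp only [Finset.mem_filter]
    constructor
    · exact fun h => h.1
    · exact fun h => ⟨h, Or.inr (Or.inl rfl)⟩
  simp only [h0, h1, Finset.sum_singleton]
  simp only [ResData.fam, D.sc_zero, one_mul]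
  ring

end Count

end Fermat.Agent.LT.T7.H528S

end
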