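import Mathlib
import Fermat.Agent.LT.T6.H305.SatakeEigen
import Fermat.Agent.LT.T7.H528.SphCount

/-!
# Row LT, tower T7: ASSET for the step `T_w` of the first pair (`B981.StepTC981`, node
# `ST589.ShapeTC589`), part 2: the Hecke operator `T` on the spherical functions

OFF-MAIN (helper528).  LOCAL, one valued field `k` with `T6.IsLocalField k q`.

* `sum_cartan_sys528`: for ANY coset system `H` of `K diag(ϖ,1) K / K` (`T6.IsCosetSys (1,0)`)
  and `x` of Cartan type `(a, b)`: `∑_{h ∈ H} G (cartan (x h))` is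
  `q G(a+1, b) + G(a, b+1)` if `a > b` and `(q + 1) G(a+1, b)` if `a = b`.
* `tA528 q A`: the values of `T φ` on the Cartan invariants.
* `isSphFn_hecke528`: `x ↦ ∑_{h ∈ H} φ (x c⁻¹ h)` (`c` a scalar uniformiser) is spherical with
  the values `tA528 q A` (`H893.IsSphFn893`).
* `satT_tA528`: `satT893 q (tA528 q A) x y = √q (x + y) · satT893 q A x y`.

New names only, suffix `528`, namespace `Fermat.Agent.LT.T7.H528S`.
-/

set_option autoImplicit false
set_option linter.unusedSectionVars false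
set_option linter.unusedSimpArgs false
set_option linter.unnecessarySeqFocus false
set_option linter.deprecated false

open scoped Matrix
open scoped Classical

noncomputable section

namespace Fermat.Agent.LT.T7.H528S

open Fermat.Agent.LT.T6 Fermat.Agent.LT.T6.H305 Fermat.Agent.LT.T7.H893

variable {k : Type} [Field k] [Valued k Γ₀]

/-! ## 5. Arbitrary coset systems -/

theorem cartan_mul_K528 (g κ : GL (Fin 2) k) (hκ : InK κ) : cartan (g * κ) = cartan g := by
  unfold cartan
  rw [entryMax_mul g κ hκ, val_det_mul g κ hκ]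

/-- **THE COUNT** for an arbitrary coset system of type `(1, 0)`. -/
theorem sum_cartan_sys528 {q : ℕ} (hk : IsLocalField k q) (H : Finset (GL (Fin 2) k))
    (hH : IsCosetSys ((1 : ℤ), (0 : ℤ)) H) (x : GL (Fin 2) k) (G : ℤ × ℤ → ℂ) :
    ∑ h ∈ H, G (cartan (x * h))
      = if (cartan x).2 < (cartan x).1 then
          (q : ℂ) * G ((cartan x).1 + 1, (cartan x).2) + G ((cartan x).1, (cartan x).2 + 1)
        else ((q : ℂ) + 1) * G ((cartan x).1 + 1, (cartan x).2) := by
  obtain ⟨D, hD⟩ := exists_resData hk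
  have hΨ : ∀ u g : GL (Fin 2) k, InK u →
      (fun h => G (cartan (x * h))) (g * u) = (fun h => G (cartan (x * h))) g := by
    intro u g hu
    show G (cartan (x * (g * u))) = G (cartan (x * g))
    rw [← mul_assoc, cartan_mul_K528 _ _ hu]
  rw [D.sum_cosetSys 0 1 ((1 : ℤ), (0 : ℤ)) (by simp) H hH (fun h => G (cartan (x * h))) hΨ,
    sum_std528 D (fun h => G (cartan (x * h))), sum_cartan_std528 D x G, hD]

/-! ## 6. Scalar shifts -/

theorem cartan_mul_scalar528 (x d : GL (Fin 2) k) (d₀ : k) (e : ℤ)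
    (hd₀ : Valued.v d₀ = WithZero.exp e)
    (hd : (d : Matrix (Fin 2) (Fin 2) k) = Matrix.diagonal (fun _ => d₀)) :
    cartan (x * d) = ((cartan x).1 - e, (cartan x).2 - e) := by
  have hent : ∀ i j, ((x * d : GL (Fin 2) k) : Matrix (Fin 2) (Fin 2) k) i j
      = (x : Matrix (Fin 2) (Fin 2) k) i j * d₀ := by
    intro i j
    rw [Units.val_mul, hd, Matrix.mul_diagonal]
  have hem : entryMax (x * d) = entryMax x * WithZero.exp e := by
    apply le_antisymm
    · rw [entryMax_le_iff]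
      intro i j
      rw [hent, map_mul, hd₀]
      exact mul_le_mul' (le_entryMax x i j) le_rfl
    · obtain ⟨i, j, hij⟩ := exists_entryMax x
      rw [hij, ← hd₀, ← map_mul, ← hent]
      exact le_entryMax _ i j
  have hdet : Valued.v ((x * d : GL (Fin 2) k) : Matrix (Fin 2) (Fin 2) k).det
      = Valued.v (x : Matrix (Fin 2) (Fin 2) k).det * WithZero.exp (2 * e) := by
    rw [Units.val_mul, Matrix.det_mul, hd, Matrix.det_diagonal, map_mul]
    simp only [Finset.prod_const, Finset.card_univ, Fintype.card_fin, map_pow, hd₀]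
    rw [← WithZero.exp_nsmul]
    simp
  rw [cartan_eq_of528 (x * d) (-(cartan x).2 + e) (-((cartan x).1 + (cartan x).2) + 2 * e)
    (by rw [hem, entryMax_eq_exp528 x, ← WithZero.exp_add])
    (by rw [hdet, val_det_eq_exp528 x, ← WithZero.exp_add])]
  ext <;> simp <;> ring

theorem inv_scalar528 (c : GL (Fin 2) k) (c₀ : k) (hc₀ : c₀ ≠ 0)
    (hc : (c : Matrix (Fin 2) (Fin 2) k) = Matrix.diagonal (fun _ => c₀)) :
    ((c⁻¹ : GL (Fin 2) k) : Matrix (Fin 2) (Fin 2) k) = Matrix.diagonal (fun _ => c₀⁻¹) := by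
  rw [inv_val_eq, hc, Matrix.det_diagonal]
  ext i j
  fin_cases i <;> fin_cases j <;> simp <;> field_simp

theorem cartan_mul_unif_inv528 (x c : GL (Fin 2) k) (c₀ : k)
    (hc₀ : Valued.v c₀ = WithZero.exp (-1 : ℤ))
    (hc : (c : Matrix (Fin 2) (Fin 2) k) = Matrix.diagonal (fun _ => c₀)) :
    cartan (x * c⁻¹) = ((cartan x).1 - 1, (cartan x).2 - 1) := by
  have hne : c₀ ≠ 0 := by
    intro h
    rw [h, map_zero] at hc₀
    exact WithZero.exp_ne_zero hc₀.symm
  refine cartan_mul_scalar528 x c⁻¹ c₀⁻¹ 1 ?_ (inv_scalar528 c c₀ hne hc)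
  rw [map_inv₀, hc₀, ← WithZero.exp_neg]
  simp

/-! ## 7. The values of `T φ` on the Cartan invariants -/

/-- The weight of `μ + (0, 1)` in `T · 1_{K μ K}`. -/
def wt528 (q : ℕ) (μ : ℤ × ℤ) : ℂ :=
  if μ.1 = μ.2 then 0 else if μ.1 = μ.2 + 1 then (q : ℂ) + 1 else (q : ℂ)

/-- The values of `∑_h φ (· c⁻¹ h)` on the Cartan invariants, `A` the values of `φ`. -/
def tA528 (q : ℕ) (A : (ℤ × ℤ) →₀ ℂ) : (ℤ × ℤ) →₀ ℂ :=
  A.sum fun μ a => Finsupp.single (μ.1 + 1, μ.2) a + Finsupp.single (μ.1, μ.2 + 1) (wt528 q μ * a)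

theorem tA_apply528 (q : ℕ) (A : (ℤ × ℤ) →₀ ℂ) (lam : ℤ × ℤ) :
    tA528 q A lam = A (lam.1 - 1, lam.2) + wt528 q (lam.1, lam.2 - 1) * A (lam.1, lam.2 - 1) := by
  unfold tA528
  rw [Finsupp.sum_apply]
  simp only [Finsupp.add_apply, Finsupp.single_apply]
  rw [Finsupp.sum_add]
  congr 1
  · unfold Finsupp.sum
    rw [Finset.sum_eq_single (lam.1 - 1, lam.2)]
    · beta_reduce
      rw [if_pos]
      ext <;> simp
    · intro μ _ hne
      beta_reduce
      rw [if_neg]
      intro h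
      apply hne
      rw [← h]
      ext <;> simp
    · intro hns
      beta_reduce
      rw [Finsupp.notMem_support_iff.1 hns]
      simp
  · unfold Finsupp.sum
    rw [Finset.sum_eq_single (lam.1, lam.2 - 1)]
    · beta_reduce
      rw [if_pos]
      ext <;> simp
    · intro μ _ hne
      beta_reduce
      rw [if_neg]
      intro h
      apply hne
      rw [← h]
      ext <;> simp
    · intro hns
      beta_reduce
      rw [Finsupp.notMem_support_iff.1 hns]
      simp

theorem isDominant_tA528 (q : ℕ) (A : (ℤ × ℤ) →₀ ℂ) (hA : IsDominant A) :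
    IsDominant (tA528 q A) := by
  intro lam hlam
  rw [Finsupp.mem_support_iff, tA_apply528] at hlam
  by_contra hlt
  push Not at hlt
  apply hlam
  have h1 : A (lam.1 - 1, lam.2) = 0 := by
    by_contra hne
    have := hA _ (Finsupp.mem_support_iff.2 hne)
    simp only at this
    omega
  have h2 : wt528 q (lam.1, lam.2 - 1) * A (lam.1, lam.2 - 1) = 0 := by
    by_cases hne : A (lam.1, lam.2 - 1) = 0
    · rw [hne, mul_zero]
    · have := hA _ (Finsupp.mem_support_iff.2 hne)
      simp only at this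
      have heq : lam.1 = lam.2 - 1 := by omega
      unfold wt528
      rw [if_pos heq, zero_mul]
  rw [h1, h2, add_zero]

/-- **THE HECKE OPERATOR `T` ON THE SPHERICAL FUNCTIONS** (Cartan form). -/
theorem isSphFn_hecke528 {q : ℕ} (hk : IsLocalField k q) (H : Finset (GL (Fin 2) k))
    (hH : IsCosetSys ((1 : ℤ), (0 : ℤ)) H) (c : GL (Fin 2) k) (c₀ : k)
    (hc₀ : Valued.v c₀ = WithZero.exp (-1 : ℤ))
    (hc : (c : Matrix (Fin 2) (Fin 2) k) = Matrix.diagonal (fun _ => c₀))
    (φ : GL (Fin 2) k → ℂ) (A : (ℤ × ℤ) →₀ ℂ) (hφ : IsSphFn893 φ A) :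
    IsSphFn893 (fun x => ∑ h ∈ H, φ (x * c⁻¹ * h)) (tA528 q A) := by
  refine ⟨isDominant_tA528 q A hφ.1, fun x => ?_⟩
  have h1 : ∀ h ∈ H, φ (x * c⁻¹ * h) = (fun lam => A lam) (cartan (x * c⁻¹ * h)) :=
    fun h _ => hφ.2 _
  show ∑ h ∈ H, φ (x * c⁻¹ * h) = tA528 q A (cartan x)
  rw [Finset.sum_congr rfl h1, sum_cartan_sys528 hk H hH (x * c⁻¹) (fun lam => A lam),
    cartan_mul_unif_inv528 x c c₀ hc₀ hc, tA_apply528]
  have hdom := cartan_dominant528 x
  simp only [sub_add_cancel]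
  by_cases hlt : (cartan x).2 < (cartan x).1
  · rw [if_pos (by omega)]
    have hw : wt528 q ((cartan x).1, (cartan x).2 - 1) = (q : ℂ) := by
      unfold wt528
      rw [if_neg (by simp only; omega), if_neg (by simp only; omega)]
    rw [hw]
    ring
  · have heq : (cartan x).1 = (cartan x).2 := by omega
    rw [if_neg (by omega)]
    have hw : wt528 q ((cartan x).1, (cartan x).2 - 1) = (q : ℂ) + 1 := by
      unfold wt528
      rw [if_neg (by simp only; omega), if_pos (by simp only; omega)]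
    have h0 : A ((cartan x).1 - 1, (cartan x).2) = 0 := by
      by_contra hne
      have := hφ.1 _ (Finsupp.mem_support_iff.2 hne)
      simp only at this
      omega
    rw [hw, h0, zero_add]

/-! ## 8. The Satake transform -/

theorem satake_rec528 (q : ℕ) (μ : ℤ × ℤ) (hμ : μ.2 ≤ μ.1) (x y : ℂ) (hx : x ≠ 0) (hy : y ≠ 0) :
    satake q (μ.1 + 1, μ.2) x y + wt528 q μ * satake q (μ.1, μ.2 + 1) x y
      = ((Real.sqrt q : ℝ) : ℂ) * (x + y) * satake q μ x y := by
  obtain ⟨a, b⟩ := μ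
  simp only at hμ
  obtain ⟨n, rfl⟩ : ∃ n : ℕ, a = b + n := ⟨(a - b).toNat, by omega⟩
  have hxy : x * y ≠ 0 := mul_ne_zero hx hy
  unfold satake wt528
  simp only
  have e1 : (b + (n : ℤ) + 1 - b).toNat = n + 1 := by omega
  have e2 : (b + (n : ℤ) - b).toNat = n := by omega
  have e3 : (b + (n : ℤ) - (b + 1)).toNat = n - 1 := by omega
  rw [e1, e2, e3, zpow_add_one₀ hxy]
  rcases n with _ | _ | m
  · rw [if_pos (by simp)]
    rw [satPoly_one, satPoly_zero]
    ring
  · rw [if_neg (by simp), if_pos (by simp)]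
    rw [satPoly_two, satPoly_one]
    simp only [zero_add, Nat.sub_self, satPoly_zero]
    ring
  · rw [if_neg (by push_cast; omega), if_neg (by push_cast; omega)]
    rw [show m + 1 + 1 + 1 = m + 3 from rfl, satPoly_add_three,
      show m + 1 + 1 - 1 = m + 1 from rfl, show m + 1 + 1 = m + 2 from rfl]
    ring

/-- **THE SATAKE TRANSFORM OF `T φ`** is `√q (x + y)` times the Satake transform of `φ`. -/
theorem satT_tA528 (q : ℕ) (A : (ℤ × ℤ) →₀ ℂ) (hA : IsDominant A) (x y : ℂ) (hx : x ≠ 0)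
    (hy : y ≠ 0) :
    satT893 q (tA528 q A) x y = ((Real.sqrt q : ℝ) : ℂ) * (x + y) * satT893 q A x y := by
  unfold satT893 tA528
  rw [Finsupp.sum_sum_index (fun _ => by simp) (fun _ _ _ => by ring), Finsupp.mul_sum]
  refine Finsupp.sum_congr fun μ hμ => ?_
  rw [Finsupp.sum_add_index' (fun _ => by simp) (fun _ _ _ => by ring),
    Finsupp.sum_single_index (by simp), Finsupp.sum_single_index (by simp)]
  have := satake_rec528 q μ (hA μ hμ) x y hx hy
  linear_combination (A μ) * this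

/-- The normalised form: the values `q^{-1/2} tA528 q A` have the Satake transform
`(x + y) · satT893 q A`. -/
theorem satT_smul528 (q : ℕ) (s : ℂ) (A : (ℤ × ℤ) →₀ ℂ) (x y : ℂ) :
    satT893 q (s • A) x y = s * satT893 q A x y := by
  unfold satT893
  rw [Finsupp.sum_smul_index (fun _ => by simp), Finsupp.mul_sum]
  refine Finsupp.sum_congr fun μ _ => ?_
  ring

theorem isDominant_smul528 (s : ℂ) (A : (ℤ × ℤ) →₀ ℂ) (hA : IsDominant A) :
    IsDominant (s • A) := by
  intro lam hlam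
  apply hA
  rw [Finsupp.mem_support_iff] at hlam ⊢
  intro h
  apply hlam
  rw [Finsupp.smul_apply, h, smul_zero]

theorem isSphFn_smul528 (s : ℂ) (φ : GL (Fin 2) k → ℂ) (A : (ℤ × ℤ) →₀ ℂ)
    (hφ : IsSphFn893 φ A) : IsSphFn893 (fun x => s * φ x) (s • A) :=
  ⟨isDominant_smul528 s A hφ.1, fun x => by
    show s * φ x = (s • A) (cartan x)
    rw [Finsupp.smul_apply, smul_eq_mul, hφ.2]⟩

/-! ## 9. Fullness of a system of `q + 1` inequivalent elements -/

theorem cartan_of_isT528 (h : GL (Fin 2) k) (hh : IsT528 h) : cartan h = ((1 : ℤ), (0 : ℤ)) := by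
  have hem : entryMax h = 1 := by
    refine le_antisymm ((entryMax_le_iff h 1).2 hh.1) ?_
    by_contra hlt
    rw [not_le, lt_one_iff_le_exp] at hlt
    have h1 := val_det_le_sq528 h
    have h2 : entryMax h * entryMax h ≤ WithZero.exp (-1 : ℤ) * WithZero.exp (-1 : ℤ) :=
      mul_le_mul' hlt hlt
    rw [hh.2, ← WithZero.exp_add] at *
    have := h1.trans h2
    rw [WithZero.exp_le_exp] at this
    omega
  have := (cartan_eq_nat_iff h 1).2 ⟨hem, by simpa using hh.2⟩
  simpa using this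

theorem card_Idx_one528 (D : ResData k) : (D.Idx 1).card = D.T.card + 1 := by
  have h := sum_std528 D (fun _ => (1 : ℂ))
  simp only [Finset.sum_const, nsmul_eq_mul, mul_one] at h
  exact_mod_cast h

/-- **FULLNESS.**  `q + 1` pairwise inequivalent integral matrices with determinant of
valuation `exp (-1)` are a full system of representatives of `K diag(ϖ, 1) K / K`. -/
theorem isCosetSys_of_card528 {q : ℕ} (hk : IsLocalField k q) (H : Finset (GL (Fin 2) k))
    (h1 : ∀ h ∈ H, IsT528 h) (h2 : ∀ h ∈ H, ∀ h' ∈ H, InK (h⁻¹ * h') → h = h')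
    (hcard : H.card = q + 1) : IsCosetSys ((1 : ℤ), (0 : ℤ)) H := by
  obtain ⟨D, hD⟩ := exists_resData hk
  have hcov : ∀ h ∈ H, ∃ x ∈ D.Idx 1, InK ((D.fam 0 x)⁻¹ * h) := fun h hh =>
    D.fam_cover 0 1 h (by rw [cartan_of_isT528 h (h1 h hh)]; simp)
  -- the classes of the elements of `H`
  set f : GL (Fin 2) k → (Σ _ : ℕ × ℕ, k) := fun h =>
    if hh : h ∈ H then Classical.choose (hcov h hh) else ⟨(0, 0), 0⟩ with hf
  have hfmem : ∀ h ∈ H, f h ∈ D.Idx 1 := by
    intro h hh
    rw [hf]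
    simp only [dif_pos hh]
    exact (Classical.choose_spec (hcov h hh)).1
  have hfK : ∀ h ∈ H, InK ((D.fam 0 (f h))⁻¹ * h) := by
    intro h hh
    rw [hf]
    simp only [dif_pos hh]
    exact (Classical.choose_spec (hcov h hh)).2
  have hinj : Set.InjOn f (H : Set (GL (Fin 2) k)) := by
    intro h hh h' hh' heq
    apply h2 h hh h' hh'
    have e : h⁻¹ * h' = ((D.fam 0 (f h))⁻¹ * h)⁻¹ * ((D.fam 0 (f h))⁻¹ * h') := by group
    rw [e]
    refine inK_mul (inK_inv (hfK h hh)) ?_
    rw [heq]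
    exact hfK h' hh'
  have himg : H.image f = D.Idx 1 := by
    refine Finset.eq_of_subset_of_card_le ?_ ?_
    · intro x hx
      obtain ⟨h, hh, rfl⟩ := Finset.mem_image.1 hx
      exact hfmem h hh
    · rw [Finset.card_image_of_injOn hinj, card_Idx_one528 D, hD, hcard]
  refine ⟨fun h hh => cartan_of_isT528 h (h1 h hh), ?_, ?_⟩
  · intro h hh h' hh' hK
    exact h2 h hh h' hh' ((inU_zero_iff _).1 hK)
  · intro g hg
    obtain ⟨x, hx, hxK⟩ := D.fam_cover 0 1 g (by rw [hg]; simp)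
    rw [← himg] at hx
    obtain ⟨h, hh, rfl⟩ := Finset.mem_image.1 hx
    refine ⟨h, hh, (inU_zero_iff _).2 ?_⟩
    have e : h⁻¹ * g = ((D.fam 0 (f h))⁻¹ * h)⁻¹ * ((D.fam 0 (f h))⁻¹ * g) := by group
    rw [e]
    exact inK_mul (inK_inv (hfK h hh)) hxK

end Fermat.Agent.LT.T7.H528S

end
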