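import Mathlib
import Fermat.Agent.LT.T7.H311.ShapeTSpec
import Fermat.Agent.LT.T6.H176.InstLocal
import Fermat.Agent.LT.T7.H528.SphHecke

/-!
# Row LT, tower T7, leaf T7.L2.1.H2a.A.1.7.2 ShT.2 `H311.SphTC311` (cut of helper311): PROVED

OFF-MAIN (helper528, spare).  `sphTC528 F : H311.SphTC311 F` VERBATIM, unconditional, every
number field.  The local core is `T7/H528/SphHecke.lean` (`isSphFn_hecke528`, `satT_tA528`,
`isCosetSys_of_card528`: the count on the tree with the closed toolkit `T6/H305` of helper305);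
the completion is a local field by the closed `T6.H176.instLocalC176`.
New names only, suffix `528`, namespace `Fermat.Agent.LT.T7.H528T`.
-/

set_option autoImplicit false
set_option linter.unusedSectionVars false
set_option linter.unusedSimpArgs false
set_option linter.unnecessarySeqFocus false
set_option linter.deprecated false

open AutomorphicForm IsDedekindDomain NumberField
open scoped Classical

noncomputable section

namespace Fermat.Agent.LT.T7.H528T

open Fermat.Agent.LT.H556 Fermat.Agent.LT.H556.A0 Fermat.Agent.LT.T7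
open Fermat.Agent.LT.T7.H305 Fermat.Agent.LT.T7.H893
open Fermat.Agent.LT.T6 Fermat.Agent.LT.T6.H305 Fermat.Agent.LT.T7.H528S

variable {F : Type} [Field F] [NumberField F]

theorem finGL_val528 (v : HeightOneSpectrum (𝓞 F)) (g : G F) :
    ((finGL305 v g : GL (Fin 2) (v.adicCompletion F)) :
      Matrix (Fin 2) (Fin 2) (v.adicCompletion F)) = finComp v g := rfl

theorem isT_of_hecke528 (v : HeightOneSpectrum (𝓞 F)) (h : G F) (hint : IsIntegralAt v h)
    (hdet : Valued.v (finComp v h).det = WithZero.exp (-1 : ℤ)) : IsT528 (finGL305 v h) := by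
  refine ⟨fun i j => ?_, ?_⟩
  · rw [finGL_val528]
    exact (HeightOneSpectrum.mem_adicCompletionIntegers _ _ _).1 (hint i j)
  · rw [finGL_val528]
    exact hdet

theorem isIntegralAt_of_inK528 (v : HeightOneSpectrum (𝓞 F)) (g : G F)
    (h : InK (finGL305 v g)) : IsIntegralAt v g := by
  intro i j
  rw [HeightOneSpectrum.mem_adicCompletionIntegers, ← finGL_val528]
  exact h.1 i j

/-- **LEAF ShT.2 = SPH-T**, VERBATIM. -/
theorem sphTC528 (F : Type) [Field F] [NumberField F] : H311.SphTC311 F := by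
  intro v H z hH hz ψ A hψ
  have hk : IsLocalField (v.adicCompletion F) (Ideal.absNorm v.asIdeal) :=
    Fermat.Agent.LT.T6.H176.instLocalC176 F v
  obtain ⟨hcard, hmem, hpair⟩ := hH
  obtain ⟨_, c₀, hc₀, hzc⟩ := hz
  have hc : ((finGL305 v z : GL (Fin 2) (v.adicCompletion F)) :
      Matrix (Fin 2) (Fin 2) (v.adicCompletion F)) = Matrix.diagonal (fun _ => c₀) := by
    rw [finGL_val528, hzc]
  -- the local system
  have hinj : Set.InjOn (finGL305 v) (H : Set (G F)) := by
    intro h hh h' hh' heq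
    by_contra hne
    apply hpair h hh h' hh' hne
    apply isIntegralAt_of_inK528
    rw [map_mul, map_inv, heq, inv_mul_cancel]
    exact inK_one
  have hsys : IsCosetSys ((1 : ℤ), (0 : ℤ)) (H.image (finGL305 v)) := by
    refine isCosetSys_of_card528 hk _ ?_ ?_ ?_
    · intro h' hh'
      obtain ⟨h, hh, rfl⟩ := Finset.mem_image.1 hh'
      exact isT_of_hecke528 v h (hmem h hh).2.1 (hmem h hh).2.2
    · intro a ha b hb hK
      obtain ⟨h, hh, rfl⟩ := Finset.mem_image.1 ha
      obtain ⟨h', hh', rfl⟩ := Finset.mem_image.1 hb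
      by_contra hne
      have hne' : h ≠ h' := fun e => hne (by rw [e])
      apply hpair h hh h' hh' hne'
      apply isIntegralAt_of_inK528
      rw [map_mul, map_inv]
      exact hK
    · rw [Finset.card_image_of_injOn hinj, hcard]
  have key := isSphFn_hecke528 hk (H.image (finGL305 v)) hsys (finGL305 v z) c₀ hc₀ hc ψ A hψ
  have hsum : ∀ x : GL (Fin 2) (v.adicCompletion F),
      ∑ h' ∈ H.image (finGL305 v), ψ (x * (finGL305 v z)⁻¹ * h')
        = ∑ h ∈ H, ψ (x * (finGL305 v z)⁻¹ * finGL305 v h) :=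
    fun x => Finset.sum_image hinj
  set s : ℂ := ((Real.sqrt (Ideal.absNorm v.asIdeal : ℝ) : ℝ) : ℂ)⁻¹ with hs
  refine ⟨s • tA528 (Ideal.absNorm v.asIdeal) A, ?_, ?_⟩
  · have h2 := isSphFn_smul528 s _ _ key
    refine ⟨h2.1, fun x => ?_⟩
    rw [← h2.2 x]
    show s * ∑ h ∈ H, ψ (x * (finGL305 v z)⁻¹ * finGL305 v h) = _
    rw [← hsum x]
  · intro x y hx hy
    rw [satT_smul528, satT_tA528 _ A hψ.1 x y hx hy, hs]
    have hq : ((Real.sqrt (Ideal.absNorm v.asIdeal : ℝ) : ℝ) : ℂ) ≠ 0 := by
      have hpos : 0 < (Ideal.absNorm v.asIdeal : ℝ) := by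
        have : Ideal.absNorm v.asIdeal ≠ 0 := by
          rw [Ne, Ideal.absNorm_eq_zero_iff]
          exact v.ne_bot
        exact_mod_cast Nat.pos_of_ne_zero this
      exact_mod_cast (Real.sqrt_pos.2 hpos).ne'
    field_simp

end Fermat.Agent.LT.T7.H528T

end
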